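import Fermat.Agent.Mazur.Large.Main
import Fermat.Agent.Results.S10
import Fermat.Agent.Results.S11
import Fermat.Agent.Results.S13

/-!
# Irreducibility of the Frey representation, given the three-place lemma
-/

set_option autoImplicit false

namespace Fermat.Agent.Mazur.Large

open WeierstrassCurve.Affine.Point

/-- Mazur: the Frey representation is irreducible, given the three-place lemma. -/
theorem galoisRepIsIrreducible_frey (hcore : ThreePlaceLemma) (P : FreyPackage) :
    GaloisRepIsIrreducible (K := AlgebraicClosure ℚ) ℚ P.freyCurve P.p := by
  by_contra hred
  have hline := Fermat.Agent.Results.S13.result P hred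
  have hp5 := P.hp5
  by_cases h17 : 17 ≤ P.p
  · exact not_hasGaloisStableCofixedLine hcore P h17 hline
  · have hpp := P.pp
    have hcases : P.p = 5 ∨ P.p = 7 ∨ P.p = 11 ∨ P.p = 13 := by
      have hlt : P.p < 17 := by omega
      generalize P.p = n at hp5 hlt hpp ⊢
      interval_cases n <;> revert hpp <;> norm_num
    rcases hcases with h | h | h | h
    · exact Fermat.Agent.Results.S10.result P (Or.inl h) hline
    · exact Fermat.Agent.Results.S10.result P (Or.inr (Or.inl h)) hline
    · exact Fermat.Agent.Results.S11.result P h hline
    · exact Fermat.Agent.Results.S10.result P (Or.inr (Or.inr h)) hline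

end Fermat.Agent.Mazur.Large
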